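/- S25 block G, nodes E1, E1', E4 : the morphism `W ⟶ Spec k[X]` defined by a section. -/
import Fermat.Agent.S25.Geom.Defs

set_option autoImplicit false

universe u

open CategoryTheory CategoryTheory.Limits AlgebraicGeometry TopologicalSpace

namespace Fermat.Agent.S25.Geom

variable {k : Type u} [Field k] {C : Scheme.{u}} (c : C ⟶ Spec (CommRingCat.of k))

/-- `W ⟶ Spec Γ(C, W) ⟶ Spec k` is the structure morphism. -/
theorem secMap_toSpecΓ_kΓ (W : C.Opens) :
    W.toSpecΓ ≫ Spec.map (CommRingCat.ofHom (kΓ c W)) = W.ι ≫ c := by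
  have h : CommRingCat.ofHom (kΓ c W) =
      (Scheme.ΓSpecIso (CommRingCat.of k)).inv ≫
        c.appLE ⊤ W (show W ≤ c ⁻¹ᵁ ⊤ from le_top) := rfl
  rw [h, Spec.map_comp, Scheme.Opens.toSpecΓ_SpecMap_appLE_assoc, Scheme.Opens.toSpecΓ_top,
    Category.assoc, toSpecΓ_SpecMap_ΓSpecIso_inv, Category.comp_id, Scheme.Hom.resLE_comp_ι]

/-- Node E1. `secMap` is a morphism over `Spec k`. -/
theorem secMap_comp (W : C.Opens) (s : Γ(C, W)) :
    secMap c W s ≫ Spec.map (CommRingCat.ofHom (Polynomial.C : k →+* Polynomial k)) = W.ι ≫ c := by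
  rw [secMap, Category.assoc, ← Spec.map_comp, ← CommRingCat.ofHom_comp,
    ← secMap_toSpecΓ_kΓ c W]
  congr 3
  ext a
  simp

/-- Node E1'. the pullback of a polynomial along `secMap`:
membership of `secMap c W s w` in a basic open of the affine line. -/
theorem secMap_mem_basicOpen (W : C.Opens) (s : Γ(C, W)) (p : Polynomial k) (w : W) :
    secMap c W s w ∈ PrimeSpectrum.basicOpen p ↔
      (w : C) ∈ C.basicOpen (p.eval₂ (kΓ c W) s) := by
  have h1 : W.toSpecΓ ⁻¹ᵁ PrimeSpectrum.basicOpen (p.eval₂ (kΓ c W) s) =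
      W.ι ⁻¹ᵁ C.basicOpen (p.eval₂ (kΓ c W) s) := Scheme.Opens.toSpecΓ_preimage_basicOpen W _
  have h2 : (w : C) ∈ C.basicOpen (p.eval₂ (kΓ c W) s) ↔
      w ∈ W.ι ⁻¹ᵁ C.basicOpen (p.eval₂ (kΓ c W) s) := Iff.rfl
  rw [h2, ← h1]
  rfl

/-- Node E4. a finite `secMap` gives an affine open with finite coordinate ring. -/
theorem of_isFinite_secMap (W : C.Opens) (s : Γ(C, W)) (h : IsFinite (secMap c W s)) :
    IsAffineOpen W ∧ (Polynomial.aeval (R := k) (show Sec c W from s)).toRingHom.Finite := by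
  have hW : IsAffineOpen W := isAffine_of_isAffineHom (secMap c W s)
  refine ⟨hW, ?_⟩
  have hiso : IsIso W.toSpecΓ := by
    rw [← hW.isoSpec_hom]
    infer_instance
  have h' : IsFinite (Spec.map (CommRingCat.ofHom (Polynomial.eval₂RingHom (kΓ c W) s))) := by
    have h2 : IsFinite (inv W.toSpecΓ ≫ secMap c W s) := inferInstance
    rwa [secMap, IsIso.inv_hom_id_assoc] at h2
  rw [IsFinite.SpecMap_iff] at h'
  exact h'

end Fermat.Agent.S25.Geom
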