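/- S25 block G, nodes E5, E5'. -/
import Fermat.Agent.S25.Geom.Reg

set_option autoImplicit false

universe u

open CategoryTheory CategoryTheory.Limits AlgebraicGeometry TopologicalSpace

namespace Fermat.Agent.S25.Geom

variable {k : Type u} [Field k] {C : Scheme.{u}} (c : C ⟶ Spec (CommRingCat.of k))

variable [IsIntegral C]

/-- Node E5. -/
theorem NonConst.eval₂_ne_zero [IsAlgClosed k] {f : C.functionField} (hf : NonConst c f)
    (p : Polynomial k) (hp : p ≠ 0) : p.eval₂ (kK c) f ≠ 0 := by
  have hsplit : p.Splits := IsAlgClosed.splits p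
  have hprod := hsplit.eq_prod_roots
  rw [hprod, Polynomial.eval₂_mul, Polynomial.eval₂_C, Polynomial.eval₂_multiset_prod]
  apply mul_ne_zero
  · exact (map_ne_zero (kK c)).mpr (Polynomial.leadingCoeff_ne_zero.mpr hp)
  · apply Multiset.prod_ne_zero
    intro h0
    rw [Multiset.mem_map] at h0
    obtain ⟨q, hq, hq0⟩ := h0
    rw [Multiset.mem_map] at hq
    obtain ⟨a, -, rfl⟩ := hq
    rw [Polynomial.eval₂_sub, Polynomial.eval₂_X, Polynomial.eval₂_C, sub_eq_zero] at hq0
    exact hf a hq0

/-- Node E5'. -/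
theorem NonConst.transcendental [IsAlgClosed k] {f : C.functionField} (hf : NonConst c f) :
    Transcendental k (show Sec c (dom f) from sec f) := by
  rw [transcendental_iff]
  intro p hp
  by_contra hp0
  apply hf.eval₂_ne_zero c p hp0
  have h1 : p.eval₂ (kΓ c (dom f)) (sec f) = 0 := hp
  have h2 := (isSec_sec f).polyΓ c p
  rw [h1] at h2
  exact h2.eq_of_mem isSec_zero (genericPoint_mem_dom f)

end Fermat.Agent.S25.Geom
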