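/- S25 block G, node E3: the morphism `dom f ⟶ 𝔸¹` defined by a non-constant function has
finite fibres. -/
import Fermat.Agent.S25.Geom.Reg
import Fermat.Agent.S25.Geom.Finite.SecMap
import Fermat.Agent.S25.Geom.Finite.Trans

set_option autoImplicit false

universe u

open CategoryTheory CategoryTheory.Limits AlgebraicGeometry TopologicalSpace

namespace Fermat.Agent.S25.Geom

variable {k : Type u} [Field k] {C : Scheme.{u}} (c : C ⟶ Spec (CommRingCat.of k))

variable [IsIntegral C]

omit [IsIntegral C] in
/-- the germ of a constant section -/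
theorem fibre_germ_kΓ (W : C.Opens) (x : C) (hx : x ∈ W) (a : k) :
    C.presheaf.germ W x hx (kΓ c W a) = kStalk c x a := by
  rw [← res_kΓ c (le_top : W ≤ ⊤) a]
  exact C.presheaf.germ_res_apply (homOfLE le_top) x hx _

/-- Node E3. finite fibres. -/
theorem finite_fibre_secMap [IsAlgClosed k] (F : CurveFacts c) {f : C.functionField}
    (hf : NonConst c f) (z : Spec (CommRingCat.of (Polynomial k))) :
    (secMap c (dom f) (sec f) ⁻¹' {z}).Finite := by
  by_cases h : ∃ p : Polynomial k, p ≠ 0 ∧ z ∉ PrimeSpectrum.basicOpen p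
  · obtain ⟨p, hp, hz⟩ := h
    have ht : IsSec (p.eval₂ (kK c) f) (dom f) (p.eval₂ (kΓ c (dom f)) (sec f)) :=
      (isSec_sec f).polyΓ c p
    have hg : p.eval₂ (kK c) f ≠ 0 := hf.eval₂_ne_zero c p hp
    have hgen : genericPoint C ∈ C.basicOpen (p.eval₂ (kΓ c (dom f)) (sec f)) :=
      ht.mem_basicOpen_iff.mpr ⟨genericPoint_mem_dom f, hg, regAt_genericPoint _⟩
    have hB : C.basicOpen (p.eval₂ (kΓ c (dom f)) (sec f)) ≠ ⊥ := by
      intro h0
      rw [h0] at hgen
      exact hgen
    have hfin := F.cofinite _ hB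
    refine (hfin.preimage (f := (Subtype.val : dom f → C)) Subtype.val_injective.injOn).subset ?_
    intro w hw
    have hw' : secMap c (dom f) (sec f) w = z := hw
    intro hmem
    apply hz
    rw [← hw']
    exact (secMap_mem_basicOpen c (dom f) (sec f) p w).mpr hmem
  · push Not at h
    refine (Set.finite_singleton (⟨genericPoint C, genericPoint_mem_dom f⟩ : dom f)).subset ?_
    intro w hw
    have hw' : secMap c (dom f) (sec f) w = z := hw
    by_contra hne
    have hne' : (w : C) ≠ genericPoint C := fun h0 => hne (Subtype.ext h0)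
    obtain ⟨a, ha⟩ := F.resField w hne' (C.presheaf.germ (dom f) w w.2 (sec f))
    have hz := h (Polynomial.X - Polynomial.C a) (Polynomial.X_sub_C_ne_zero a)
    rw [← hw', secMap_mem_basicOpen, Scheme.mem_basicOpen _ _ _ w.2] at hz
    rw [Polynomial.eval₂_sub, Polynomial.eval₂_X, Polynomial.eval₂_C, map_sub,
      fibre_germ_kΓ] at hz
    exact ((IsLocalRing.mem_maximalIdeal _).mp ha) hz

end Fermat.Agent.S25.Geom
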