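/- S25 block G, node E2: existence part of the valuative criterion for `dom f ⟶ 𝔸¹`. -/
import Fermat.Agent.S25.Geom.Reg
import Fermat.Agent.S25.Geom.Finite.SecMap

set_option autoImplicit false

universe u

open CategoryTheory CategoryTheory.Limits AlgebraicGeometry TopologicalSpace

namespace Fermat.Agent.S25.Geom

variable {k : Type u} [Field k] {C : Scheme.{u}} (c : C ⟶ Spec (CommRingCat.of k))

section evA

variable {A A' : CommRingCat.{u}}

/-- evaluation of sections along a morphism from an affine scheme -/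
noncomputable def evA (m : Spec A ⟶ C) (U : C.Opens) (h : ⊤ ≤ m ⁻¹ᵁ U) : Γ(C, U) ⟶ A :=
  m.appLE U ⊤ h ≫ (Scheme.ΓSpecIso A).hom

theorem evA_res (m : Spec A ⟶ C) {U V : C.Opens} (hVU : V ≤ U) (h : ⊤ ≤ m ⁻¹ᵁ V) :
    C.presheaf.map (homOfLE hVU).op ≫ evA m V h = evA m U (h.trans (m.preimage_mono hVU)) := by
  simp only [evA, ← Category.assoc, Scheme.Hom.map_appLE]

theorem evA_comp (θ : A ⟶ A') (m : Spec A ⟶ C) (U : C.Opens) (h : ⊤ ≤ m ⁻¹ᵁ U)
    (h' : ⊤ ≤ (Spec.map θ ≫ m) ⁻¹ᵁ U) :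
    evA (Spec.map θ ≫ m) U h' = evA m U h ≫ θ := by
  have h0 : (⊤ : (Spec A').Opens) ≤ Spec.map θ ⁻¹ᵁ ⊤ := le_of_eq rfl
  have h1 : (Spec.map θ ≫ m).appLE U ⊤ h' = m.appLE U ⊤ h ≫ (Spec.map θ).appLE ⊤ ⊤ h0 := by
    rw [Scheme.Hom.appLE_comp_appLE]
  simp only [evA, h1, Category.assoc]
  congr 1
  rw [← Scheme.ΓSpecIso_naturality]
  congr 1

theorem mem_basicOpen_iff_evA (m : Spec A ⟶ C) (U : C.Opens) (h : ⊤ ≤ m ⁻¹ᵁ U) (s : Γ(C, U))
    (z : Spec A) : m z ∈ C.basicOpen s ↔ evA m U h s ∉ z.asIdeal := by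
  have h1 : m ⁻¹ᵁ C.basicOpen s = (Spec A).basicOpen (m.appLE U ⊤ h s) := by
    rw [Scheme.preimage_basicOpen, Scheme.Hom.appLE, CommRingCat.comp_apply,
      Scheme.basicOpen_res]
    simp
  have h2 : m z ∈ C.basicOpen s ↔ z ∈ m ⁻¹ᵁ C.basicOpen s := Iff.rfl
  rw [h2, h1, basicOpen_eq_of_affine']
  rfl

theorem comp_toSpecΓ_eq (W : C.Opens) (m' : Spec A ⟶ W.toScheme) (h : ⊤ ≤ (m' ≫ W.ι) ⁻¹ᵁ W) :
    m' ≫ W.toSpecΓ = Spec.map (evA (m' ≫ W.ι) W h) := by
  have h1 := Scheme.Opens.toSpecΓ_SpecMap_appLE (m' ≫ W.ι) W ⊤ h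
  have h2 : (m' ≫ W.ι).resLE W ⊤ h = (⊤ : (Spec A).Opens).ι ≫ m' := by
    rw [← cancel_mono W.ι]; simp
  have : IsIso (⊤ : (Spec A).Opens).ι := (Spec A).topIso.isIso_hom
  rw [h2, Scheme.Opens.toSpecΓ_top, Category.assoc, Category.assoc, cancel_epi] at h1
  rw [← h1, evA, Spec.map_comp, SpecMap_ΓSpecIso_hom]

/-- morphisms from `Spec` of a domain to an affine scheme are determined on the generic point -/
theorem eq_of_comp_eq_of_injective {B : CommRingCat.{u}} (θ : A ⟶ A')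
    (hθ : Function.Injective θ) (u v : Spec A ⟶ Spec B) (h : Spec.map θ ≫ u = Spec.map θ ≫ v) :
    u = v := by
  obtain ⟨u, rfl⟩ := Spec.map_surjective u
  obtain ⟨v, rfl⟩ := Spec.map_surjective v
  rw [← Spec.map_comp, ← Spec.map_comp] at h
  have h1 := Spec.map_injective h
  congr 1
  ext b
  apply hθ
  exact congr($(h1).hom b)

end evA

variable [IsIntegral C]

theorem existence_secMap_aux [IsProper c]
    (val : ∀ (x : C) (f : C.functionField), RegAt f x ∨ RegAt f⁻¹ x) (f : C.functionField)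
    (W : C.Opens) (s : Γ(C, W)) (hs : IsSec f W s) (hW : ∀ x, RegAt f x → x ∈ W) :
    ValuativeCriterion.Existence (secMap c W s) := by
  intro S
  let g : Spec (CommRingCat.of (Polynomial k)) ⟶ Spec (CommRingCat.of k) :=
    Spec.map (CommRingCat.ofHom Polynomial.C)
  let θ : CommRingCat.of S.R ⟶ CommRingCat.of S.K := CommRingCat.ofHom (algebraMap S.R S.K)
  have hθ : Function.Injective θ := IsFractionRing.injective S.R S.K
  have hc : ValuativeCriterion.Existence c := by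
    have : UniversallyClosed c := inferInstance
    rw [UniversallyClosed.eq_valuativeCriterion] at this
    exact this.1
  have sq : CommSq (S.i₁ ≫ W.ι) (Spec.map θ) c (S.i₂ ≫ g) := ⟨by
    rw [Category.assoc, ← secMap_comp c W s, ← Category.assoc, S.commSq.w, Category.assoc]⟩
  let S' : ValuativeCommSq c :=
    { R := S.R, K := S.K, i₁ := S.i₁ ≫ W.ι, i₂ := S.i₂ ≫ g, commSq := sq }
  obtain ⟨⟨l, hl₁, hl₂⟩⟩ := (hc S').exists_lift
  change Spec.map θ ≫ l = S.i₁ ≫ W.ι at hl₁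
  let z₀ : Spec (CommRingCat.of S.R) := IsLocalRing.closedPoint S.R
  have hspec : ∀ (z : Spec (CommRingCat.of S.R)) (V : C.Opens), l z₀ ∈ V → l z ∈ V := by
    intro z V hV
    have h1 : z ⤳ z₀ := IsLocalRing.specializes_closedPoint z
    exact (h1.map l.continuous).mem_open V.isOpen hV
  have key : l z₀ ∈ W := by
    apply hW
    by_contra hreg
    have hinv := (val _ f).resolve_left hreg
    obtain ⟨V, hV, t, ht⟩ := hinv.exists_isSec
    have hlV : ⊤ ≤ l ⁻¹ᵁ V := fun z _ => hspec z V hV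
    have hr : evA l V hlV t ∈ z₀.asIdeal := by
      by_contra h
      have h2 := (mem_basicOpen_iff_evA l V hlV t z₀).mpr h
      rw [ht.mem_basicOpen_iff] at h2
      exact hreg (by simpa using h2.2.2)
    obtain ⟨ψ, hψ⟩ := Spec.map_surjective S.i₂
    have hf0 : f ≠ 0 := by
      rintro rfl
      exact hreg regAt_zero
    have hmW : ⊤ ≤ (S.i₁ ≫ W.ι) ⁻¹ᵁ W := fun z _ => (S.i₁ z).2
    have hmV : ⊤ ≤ (S.i₁ ≫ W.ι) ⁻¹ᵁ V := by
      rw [← hl₁]
      exact fun z _ => hspec _ V hV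
    have hmN : ⊤ ≤ (S.i₁ ≫ W.ι) ⁻¹ᵁ (W ⊓ V) := fun z hz => ⟨hmW hz, hmV hz⟩
    have E1 : evA (S.i₁ ≫ W.ι) V hmV = evA l V hlV ≫ θ := by
      have : ∀ (m : Spec (CommRingCat.of S.K) ⟶ C) (_ : Spec.map θ ≫ l = m) (h : ⊤ ≤ m ⁻¹ᵁ V),
          evA m V h = evA l V hlV ≫ θ := by
        rintro _ rfl h
        exact evA_comp θ l V hlV h
      exact this _ hl₁ _
    have E2 : CommRingCat.ofHom (Polynomial.eval₂RingHom (kΓ c W) s) ≫ evA (S.i₁ ≫ W.ι) W hmW
        = ψ ≫ θ := by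
      apply Spec.map_injective
      rw [Spec.map_comp, Spec.map_comp, ← comp_toSpecΓ_eq, hψ, ← S.commSq.w, Category.assoc]
      rfl
    have E3 : evA (S.i₁ ≫ W.ι) W hmW s * evA (S.i₁ ≫ W.ι) V hmV t = 1 := by
      rw [← evA_res (S.i₁ ≫ W.ι) (inf_le_left : W ⊓ V ≤ W) hmN,
        ← evA_res (S.i₁ ≫ W.ι) (inf_le_right : W ⊓ V ≤ V) hmN, CommRingCat.comp_apply,
        CommRingCat.comp_apply, ← map_mul]
      have h3 : C.presheaf.map (homOfLE (inf_le_left : W ⊓ V ≤ W)).op s *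
          C.presheaf.map (homOfLE (inf_le_right : W ⊓ V ≤ V)).op t = 1 := by
        apply IsSec.unique (f := 1) _ isSec_one
        rw [← mul_inv_cancel₀ hf0]
        exact (hs.res _).mul (ht.res _)
      rw [h3, map_one]
    have E4 : ψ Polynomial.X * evA l V hlV t = 1 := by
      apply hθ
      rw [map_mul, map_one, ← E3, E1]
      congr 1
      have := congr($(E2).hom Polynomial.X)
      simpa using this.symm
    apply z₀.isPrime.ne_top
    rw [Ideal.eq_top_iff_one, ← E4]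
    exact Ideal.mul_mem_left _ _ hr
  let l' : Spec (CommRingCat.of S.R) ⟶ W.toScheme := IsOpenImmersion.lift W.ι l (by
    rintro _ ⟨z, rfl⟩
    simpa using hspec z W key)
  have hl' : l' ≫ W.ι = l := IsOpenImmersion.lift_fac _ _ _
  have h1 : Spec.map θ ≫ l' = S.i₁ := by
    rw [← cancel_mono W.ι, Category.assoc, hl', hl₁]
  refine ⟨⟨⟨l', h1, ?_⟩⟩⟩
  apply eq_of_comp_eq_of_injective θ hθ
  rw [← Category.assoc, h1, S.commSq.w]

/-- Node E2 (KEY). existence part of the valuative criterion. -/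
theorem existence_secMap [IsProper c]
    (val : ∀ (x : C) (f : C.functionField), RegAt f x ∨ RegAt f⁻¹ x) (f : C.functionField) :
    ValuativeCriterion.Existence (secMap c (dom f) (sec f)) :=
  existence_secMap_aux c val f _ _ (isSec_sec f) fun _ h => mem_dom.mpr h

end Fermat.Agent.S25.Geom
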